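import Mathlib.LinearAlgebra.Lagrange
import Mathlib.Algebra.CharZero.Infinite
import Mathlib.Tactic

/-!
# Sums of powers of linear forms in two variables

The moments `m k = c k / (d choose k)` of a form are represented on `d` distinct nodes exactly
when the functional `X ^ k ↦ m k` kills their product; `d - 1` nodes near a generic point and one
more, found by a linear equation, do this.
-/

set_option autoImplicit false

noncomputable section

open Polynomial

namespace FA.BinaryWaring

variable {K : Type*} [Field K] [CharZero K]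

/-- The functional of the moments. -/
def momentFun (d : ℕ) (m : ℕ → K) : K[X] →ₗ[K] K :=
  ∑ k ∈ Finset.range (d + 1), m k • lcoeff K k

omit [CharZero K] in
theorem momentFun_apply (d : ℕ) (m : ℕ → K) (p : K[X]) :
    momentFun d m p = ∑ k ∈ Finset.range (d + 1), m k * p.coeff k := by
  simp [momentFun]

omit [CharZero K] in
theorem momentFun_X_pow {d k : ℕ} (m : ℕ → K) (hk : k ≤ d) : momentFun d m (X ^ k) = m k := by
  rw [momentFun_apply, Finset.sum_eq_single k]
  · simp
  · intro j _ hj; simp [coeff_X_pow, hj]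
  · intro h; exact absurd (Finset.mem_range.2 (by omega)) h

omit [CharZero K] in
theorem moments_of_nodes {d : ℕ} {m : ℕ → K} {v : Fin d → K} (hv : Function.Injective v)
    (hP : momentFun d m (∏ i, (X - C (v i))) = 0) {k : ℕ} (hk : k ≤ d) :
    m k = ∑ i, momentFun d m (Lagrange.basis Finset.univ v i) * v i ^ k := by
  classical
  set P : K[X] := ∏ i, (X - C (v i)) with hPdef
  have key : ∀ R : K[X], R.degree < d →
      momentFun d m R = ∑ i, momentFun d m (Lagrange.basis Finset.univ v i) * R.eval (v i) := by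
    intro R hR
    conv_lhs => rw [Lagrange.eq_interpolate (f := R) (s := Finset.univ) hv.injOn
      (by simpa using hR), Lagrange.interpolate_apply]
    rw [map_sum]
    exact Finset.sum_congr rfl fun i _ => by rw [← smul_eq_C_mul, map_smul, smul_eq_mul, mul_comm]
  rcases eq_or_lt_of_le hk with rfl | hlt
  · rw [← momentFun_X_pow m le_rfl, ← sub_zero (momentFun k m (X ^ k)), ← hP, ← map_sub,
      key (X ^ k - P) ?_]
    · refine Finset.sum_congr rfl fun i _ => ?_
      have : P.eval (v i) = 0 := by
        rw [hPdef, eval_prod]; exact Finset.prod_eq_zero (Finset.mem_univ i) (by simp)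
      simp [this]
    · have hm : P.Monic := monic_prod_of_monic _ _ fun i _ => monic_X_sub_C _
      have hd : P.natDegree = k := by rw [hPdef, natDegree_finsetProd_X_sub_C_eq_card]; simp
      refine (degree_sub_lt_left ?_ (pow_ne_zero _ X_ne_zero) ?_).trans_eq (degree_X_pow _)
      · rw [degree_X_pow, degree_eq_natDegree hm.ne_zero, hd]
      · rw [hm.leadingCoeff, leadingCoeff_X_pow]
  · rw [← momentFun_X_pow m hk, key _ (by rw [degree_X_pow]; exact_mod_cast hlt)]
    simp

theorem exists_generic {d : ℕ} {m : ℕ → K} {j k₀ : ℕ} (hk : k₀ ≤ j) (hkd : k₀ ≤ d)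
    (hm : m k₀ ≠ 0) :
    {s : K | momentFun d m ((X + C s) ^ j) = 0}.Finite := by
  set A : K[X] := ∑ k ∈ Finset.range (d + 1), C ((j.choose k : K) * m k) * X ^ (j - k) with hA
  have hA0 : A ≠ 0 := fun h => by
    have := congrArg (fun p : K[X] => p.coeff (j - k₀)) h
    simp only [hA, finsetSum_coeff, coeff_C_mul_X_pow, coeff_zero] at this
    rw [Finset.sum_eq_single k₀, if_pos rfl] at this
    · exact mul_ne_zero (Nat.cast_ne_zero.2 (Nat.choose_pos hk).ne') hm this
    · intro i _ hi
      split_ifs with e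
      · rw [Nat.choose_eq_zero_of_lt (by omega), Nat.cast_zero, zero_mul]
      · rfl
    · intro h'; exact absurd (Finset.mem_range.2 (by omega)) h'
  refine (finite_setOfPred_isRoot hA0).subset fun s hs => ?_
  simp only [Set.mem_ofPred_eq, momentFun_apply, coeff_X_add_C_pow] at hs
  show eval s A = 0
  rw [← hs, hA, eval_finsetSum]
  exact Finset.sum_congr rfl fun i _ => by simp; ring

omit [CharZero K] in
theorem finite_bad {d : ℕ} (m : ℕ → K) (Q : K[X][X])
    (h0 : momentFun d m (Q.map (evalRingHom 0)) ≠ 0) :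
    {e : K | momentFun d m (Q.map (evalRingHom e)) = 0}.Finite := by
  set A : K[X] := ∑ k ∈ Finset.range (d + 1), C (m k) * Q.coeff k with hA
  have he : ∀ e, A.eval e = momentFun d m (Q.map (evalRingHom e)) := fun e => by
    simp [hA, momentFun_apply, eval_finsetSum]
  refine (finite_setOfPred_isRoot (p := A) fun h => h0 ?_).subset fun e h => ?_
  · rw [← he, h, eval_zero]
  · exact (he e).trans h

theorem exists_nodes {n : ℕ} {m : ℕ → K} {k₀ : ℕ} (hk : k₀ ≤ n) (hm : m k₀ ≠ 0) :
    ∃ v : Fin (n + 1) → K, Function.Injective v ∧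
      momentFun (n + 1) m (∏ i, (X - C (v i))) = 0 := by
  classical
  obtain ⟨s, hs⟩ := ((exists_generic (d := n + 1) (j := n) hk (by omega) hm).union
    (exists_generic (d := n + 1) (j := n + 1) (by omega) (by omega) hm)).infinite_compl.nonempty
  simp only [Set.mem_compl_iff, Set.mem_union, Set.mem_ofPred_eq, not_or] at hs
  set Q : K[X][X] := ∏ i : Fin n, (X + C (C s + C (i : K) * X)) with hQ
  have hQ0 : Q.map (evalRingHom 0) = (X + C s) ^ n := by
    simp [hQ, Polynomial.map_prod]
  have hQ1 : ∀ j : Fin n, ((X + C (C s + C (j : K) * X)) * Q).map (evalRingHom 0) =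
      (X + C s) ^ (n + 1) := fun j => by
    rw [Polynomial.map_mul, hQ0, pow_succ']; simp
  obtain ⟨e, he⟩ := (((Set.finite_singleton (0 : K)).union
    (finite_bad (d := n + 1) m Q (by rw [hQ0]; exact hs.1))).union
      (Set.finite_iUnion fun j : Fin n => finite_bad (d := n + 1) m
        ((X + C (C s + C (j : K) * X)) * Q) (by rw [hQ1 j]; exact hs.2))).infinite_compl.nonempty
  simp only [Set.mem_compl_iff, Set.mem_union, Set.mem_singleton_iff, Set.mem_ofPred_eq,
    Set.mem_iUnion, not_or, not_exists] at he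
  obtain ⟨⟨he0, heq⟩, hej⟩ := he
  set q : K[X] := Q.map (evalRingHom e) with hq
  set t := momentFun (n + 1) m (X * q) / momentFun (n + 1) m q with ht
  have hqt : momentFun (n + 1) m ((X - C t) * q) = 0 := by
    rw [sub_mul, map_sub, ← smul_eq_C_mul, map_smul, smul_eq_mul, ht, div_mul_cancel₀ _ heq,
      sub_self]
  refine ⟨Fin.snoc (fun i : Fin n => -(s + (i : K) * e)) t, ?_, ?_⟩
  · rw [Fin.snoc_injective_iff]
    refine ⟨fun i j h => Fin.ext ?_, ?_⟩
    · simp only [neg_inj, add_right_inj, mul_eq_mul_right_iff, Nat.cast_inj] at h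
      exact h.resolve_right he0
    · rintro ⟨j, hj⟩
      refine hej j ?_
      rw [Polynomial.map_mul, ← hq,
        show (X + C (C s + C (j : K) * X) : K[X][X]).map (evalRingHom e) = X - C t by
          rw [← hj]; simp; ring]
      exact hqt
  · rw [Fin.prod_univ_castSucc]
    simp only [Fin.snoc_castSucc, Fin.snoc_last]
    rw [mul_comm, show ∏ i : Fin n, (X - C (-(s + (i : K) * e))) = q by
      simp [hq, hQ, Polynomial.map_prod]; exact Finset.prod_congr rfl fun i _ => by ring]
    exact hqt

theorem expand {d : ℕ} (c : ℕ → K) {ι : Type*} [Fintype ι] (w v : ι → K)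
    (h : ∀ k ≤ d, c k / (d.choose k : K) = ∑ i, w i * v i ^ k) (x y : K) :
    ∑ k ∈ Finset.range (d + 1), c k * x ^ (d - k) * y ^ k = ∑ i, w i * (x + v i * y) ^ d := by
  simp_rw [add_comm x, add_pow, Finset.mul_sum]
  rw [Finset.sum_comm]
  refine Finset.sum_congr rfl fun k hk => ?_
  have hk' : k ≤ d := by have := Finset.mem_range.1 hk; omega
  have hc : (d.choose k : K) ≠ 0 := Nat.cast_ne_zero.2 (Nat.choose_pos hk').ne'
  rw [show c k = (∑ i, w i * v i ^ k) * (d.choose k : K) by rw [← h k hk']; field_simp,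
    Finset.sum_mul, Finset.sum_mul, Finset.sum_mul]
  exact Finset.sum_congr rfl fun i _ => by rw [mul_pow]; ring

theorem weighted {d : ℕ} (hd : 0 < d) (c : ℕ → K) :
    ∃ r ≤ d, ∃ w a b : Fin r → K, ∀ x y : K,
      ∑ k ∈ Finset.range (d + 1), c k * x ^ (d - k) * y ^ k =
        ∑ i, w i * (a i * x + b i * y) ^ d := by
  by_cases hex : ∃ k < d, c k ≠ 0
  · obtain ⟨k₀, hk₀, hc⟩ := hex
    obtain ⟨n, rfl⟩ : ∃ n, d = n + 1 := ⟨d - 1, by omega⟩
    set m : ℕ → K := fun k => c k / ((n + 1).choose k : K)
    have hm : m k₀ ≠ 0 :=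
      div_ne_zero hc (Nat.cast_ne_zero.2 (Nat.choose_pos (by omega)).ne')
    obtain ⟨v, hv, hP⟩ := exists_nodes (by omega : k₀ ≤ n) hm
    refine ⟨n + 1, le_rfl, fun i => momentFun (n + 1) m (Lagrange.basis Finset.univ v i),
      fun _ => 1, v, fun x y => ?_⟩
    rw [expand c _ v (fun k hk => moments_of_nodes hv hP hk) x y]
    simp
  · push Not at hex
    refine ⟨1, hd, fun _ => c d, fun _ => 0, fun _ => 1, fun x y => ?_⟩
    rw [Finset.sum_eq_single d]
    · simp
    · intro k hk hkd; simp [hex k (by have := Finset.mem_range.1 hk; omega)]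
    · simp

theorem monomial_moments {d r : ℕ} (hd : 0 < d) {w a b : Fin r → K}
    (h : ∀ s : K, s = ∑ i, w i * (a i + b i * s) ^ d) {k : ℕ} (hk : k ≤ d) :
    ∑ i, w i * a i ^ (d - k) * b i ^ k = if k = 1 then 1 / (d : K) else 0 := by
  have hP : (X : K[X]) = ∑ i, C (w i) * (C (b i) * X + C (a i)) ^ d := Polynomial.funext fun s => by
    rw [eval_finsetSum, eval_X]
    refine (h s).trans (Finset.sum_congr rfl fun i _ => ?_)
    simp only [eval_mul, eval_C, eval_pow, eval_add, eval_X]; ring
  have := congrArg (fun p : K[X] => p.coeff k) hP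
  simp only [finsetSum_coeff, coeff_C_mul] at this
  have hterm : ∀ i, ((C (b i) * X + C (a i)) ^ d).coeff k =
      b i ^ k * a i ^ (d - k) * (d.choose k : K) := fun i => by
    rw [show (C (b i) * X + C (a i)) ^ d = ((X + C (a i)) ^ d).comp (C (b i) * X) by simp,
      comp_C_mul_X_coeff, coeff_X_add_C_pow]
    ring
  simp only [hterm] at this
  have hc : (d.choose k : K) ≠ 0 := Nat.cast_ne_zero.2 (Nat.choose_pos hk).ne'
  refine mul_right_cancel₀ hc ?_
  rw [Finset.sum_mul]
  calc ∑ i, w i * a i ^ (d - k) * b i ^ k * (d.choose k : K)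
        = ∑ i, w i * (b i ^ k * a i ^ (d - k) * (d.choose k : K)) :=
          Finset.sum_congr rfl fun i _ => by ring
    _ = (X : K[X]).coeff k := this.symm
    _ = _ := by
      rw [coeff_X]
      rcases eq_or_ne k 1 with rfl | hk1
      · have : (d : K) ≠ 0 := Nat.cast_ne_zero.2 hd.ne'
        simp [Nat.choose_one_right, this]
      · simp [hk1, Ne.symm hk1]

theorem monomial_lower {d r : ℕ} (hr : r < d) (w a b : Fin r → K) :
    ¬∀ x y : K, x ^ (d - 1) * y = ∑ i, w i * (a i * x + b i * y) ^ d := by
  classical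
  intro h
  have hd : 0 < d := by omega
  have hmom := fun {k : ℕ} (hk : k ≤ d) =>
    monomial_moments (w := w) (a := a) (b := b) hd (fun s => by simpa using h 1 s) hk
  set S := Finset.univ.filter fun i => a i ≠ 0 with hS
  set ρ := fun i => b i / a i
  set T := S.filter fun i => ρ i ≠ 0 with hT
  set P : K[X] := ∏ i ∈ T, (X - C (ρ i)) with hP
  have hval : ∑ i ∈ S, w i * a i ^ d * (X * P).eval (ρ i) = 0 := by
    refine Finset.sum_eq_zero fun i hi => ?_
    by_cases h0 : ρ i = 0
    · simp [h0]
    · rw [eval_mul, hP, eval_prod, Finset.prod_eq_zero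
        (Finset.mem_filter.2 ⟨hi, h0⟩) (by simp), mul_zero, mul_zero]
  have hdeg : (X * P).natDegree ≤ S.card + 1 := by
    refine natDegree_mul_le.trans ?_
    rw [natDegree_X, hP, natDegree_finsetProd_X_sub_C_eq_card, add_comm]
    exact Nat.add_le_add_right (Finset.card_filter_le _ _) _
  have hSr : S.card ≤ r := by simpa using Finset.card_le_univ S
  have hk : ∀ k ∈ Finset.range (S.card + 2),
      ∑ i ∈ S, w i * a i ^ d * ρ i ^ k = if k = 1 then 1 / (d : K) else 0 := by
    intro k hk
    have hk' : k ≤ S.card + 1 := by have := Finset.mem_range.1 hk; omega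
    rw [← hmom (by omega : k ≤ d), ← Finset.sum_subset (Finset.subset_univ S)
      (f := fun i => w i * a i ^ (d - k) * b i ^ k) fun i _ hi => ?_]
    · refine Finset.sum_congr rfl fun i hi => ?_
      have ha : a i ≠ 0 := (Finset.mem_filter.1 hi).2
      simp only [ρ, div_pow]
      rw [mul_assoc, mul_assoc, ← Nat.sub_add_cancel (by omega : k ≤ d), pow_add,
        Nat.sub_add_cancel (by omega : k ≤ d)]
      field_simp
    · have ha : a i = 0 := by simpa [hS] using hi
      have hlt : S.card < r := by
        simpa using Finset.card_lt_univ_of_notMem hi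
      simp [ha, zero_pow (by omega : d - k ≠ 0)]
  simp_rw [eval_eq_sum_range' (show (X * P).natDegree < S.card + 2 by omega), Finset.mul_sum]
    at hval
  rw [Finset.sum_comm] at hval
  have hval' : ∑ k ∈ Finset.range (S.card + 2),
      (X * P).coeff k * (if k = 1 then 1 / (d : K) else 0) = 0 := by
    refine (Finset.sum_congr rfl fun k hk' => ?_).trans hval
    rw [← hk k hk', Finset.mul_sum]
    exact Finset.sum_congr rfl fun i _ => by ring
  rw [Finset.sum_eq_single 1 (fun k _ hk1 => by simp [hk1]) (fun h' => absurd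
    (Finset.mem_range.2 (by omega)) h'), if_pos rfl, show (1 : ℕ) = 0 + 1 from rfl,
    coeff_X_mul, coeff_zero_eq_eval_zero, hP, eval_prod] at hval'
  refine (mul_eq_zero.1 hval').elim (Finset.prod_ne_zero_iff.2 fun i hi => ?_)
    (one_div_ne_zero (Nat.cast_ne_zero.2 hd.ne'))
  simpa using (Finset.mem_filter.1 hi).2

end FA.BinaryWaring
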